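import Mathlib

/-!
# S16 / WP U2 — pure algebra: pigeonhole in a finitely generated `ℤ`-module, and arithmetic

(helper283)
-/

set_option autoImplicit false

namespace Fermat.Agent.S16.H283

/-- The quotient of a finitely generated `ℤ`-module by `q M` (`q ≠ 0`) is finite. -/
theorem finite_quotient_range_smul (M : Type*) [AddCommGroup M] [Module.Finite ℤ M]
    (q : ℕ) (hq : q ≠ 0) :
    Finite (M ⧸ LinearMap.range (LinearMap.lsmul ℤ M (q : ℤ))) := by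
  apply Module.finite_of_fg_torsion
  intro x
  refine ⟨⟨(q : ℤ), mem_nonZeroDivisors_of_ne_zero (by exact_mod_cast hq)⟩, ?_⟩
  obtain ⟨m, rfl⟩ := Submodule.Quotient.mk_surjective _ x
  rw [Submonoid.mk_smul, ← Submodule.Quotient.mk_smul, Submodule.Quotient.mk_eq_zero]
  exact ⟨m, rfl⟩

/-- Pigeonhole: a family `x r` (`r ∈ R`) in a finitely generated `ℤ`-module `M`, together with an
integer valued additive "coefficient" map `φ : M → (ℕ → ℂ)` such that `φ (x r) r ≢ 0 mod q` but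
`φ (x r') r ≡ 0 mod q` for `r' ≠ r`, can only exist for finitely many `r`. -/
theorem finite_of_pigeonhole {M : Type*} [AddCommGroup M] [Module.Finite ℤ M]
    (q : ℕ) (hq : q ≠ 0)
    (φ : M →+ (ℕ → ℂ)) (hφ : ∀ m n, ∃ z : ℤ, φ m n = (z : ℂ))
    (R : Set ℕ) (x : ℕ → M) (c : ℕ → ℤ)
    (hdiag : ∀ r ∈ R, ∃ z : ℤ, φ (x r) r = (c r : ℂ) + (q : ℂ) * (z : ℂ))
    (hoff : ∀ r ∈ R, ∀ r' ∈ R, r ≠ r' → ∃ z : ℤ, φ (x r') r = (q : ℂ) * (z : ℂ))
    (hc : ∀ r ∈ R, ¬ (q : ℤ) ∣ c r) : R.Finite := by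
  by_contra hinf
  have hRinf : R.Infinite := hinf
  have : Infinite R := hRinf.to_subtype
  have := finite_quotient_range_smul M q hq
  obtain ⟨⟨r, hr⟩, ⟨r', hr'⟩, hne, heq⟩ := Finite.exists_ne_map_eq_of_infinite
    (fun r : R => (Submodule.Quotient.mk (x r) :
      M ⧸ LinearMap.range (LinearMap.lsmul ℤ M (q : ℤ))))
  have hne' : r ≠ r' := fun h => hne (Subtype.ext h)
  simp only at heq
  rw [Submodule.Quotient.eq] at heq
  obtain ⟨m, hm⟩ := heq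
  have hm' : (q : ℤ) • m = x r - x r' := hm
  obtain ⟨z₁, hz₁⟩ := hdiag r hr
  obtain ⟨z₂, hz₂⟩ := hoff r hr r' hr' hne'
  obtain ⟨z₃, hz₃⟩ := hφ m r
  have h1 : φ ((q : ℤ) • m) r = (q : ℂ) * (z₃ : ℂ) := by
    rw [map_zsmul, Pi.smul_apply, hz₃, zsmul_eq_mul]
    push_cast
    ring
  rw [hm', map_sub, Pi.sub_apply, hz₁, hz₂] at h1
  have h2 : ((c r : ℤ) : ℂ) = (((q : ℤ) * (z₃ - z₁ + z₂) : ℤ) : ℂ) := by
    push_cast
    linear_combination h1
  have h3 : c r = (q : ℤ) * (z₃ - z₁ + z₂) := by exact_mod_cast h2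
  exact hc r hr ⟨_, h3⟩

/-- Arithmetic core of the Hecke pigeonhole: the unit `u` used to pick primes. -/
def unitOf (ℓ : ℕ) : ℕ := if ℓ = 2 then 3 else 2

theorem unitOf_coprime {ℓ : ℕ} (hℓ : ℓ.Prime) (a : ℕ) : Nat.Coprime (unitOf ℓ) (ℓ ^ a) := by
  apply Nat.Coprime.pow_right
  unfold unitOf
  split_ifs with h
  · subst h; decide
  · rw [Nat.coprime_comm]
    exact (Nat.coprime_primes hℓ Nat.prime_two).mpr h

theorem unitOf_sq_sub_one_dvd (ℓ : ℕ) : ((unitOf ℓ : ℤ) ^ 2 - 1) ∣ 24 := by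
  unfold unitOf
  split_ifs <;> norm_num

end Fermat.Agent.S16.H283
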