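import Mathlib
import Fermat.Prelude.Def_ModularForm_HeckeOperator
import Fermat.Prelude.Def_ModularForm_HeckeOperatorForms
import Fermat.Prelude.Def_FLTPrelim_Modularity
import Fermat.Prelude.Def_CuspForm_IntegralStructure
import Fermat.Prelude.Thm_CuspForm_intLattice_fg
import Fermat.Prelude.Thm_CuspForm_mem_intLattice_of_coe_eq_heckeT
import Fermat.Prelude.Thm_ModularFormClass_qCoeff_heckeT
import Fermat.Prelude.Thm_CongruenceSubgroup_one_mem_strictPeriods_Gamma0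
import Fermat.Agent.S16.Defs
import Fermat.Agent.S20.Bridge
import Fermat.Agent.S22T.DeltaInt
import Fermat.Agent.S16.H283.Pigeon

/-!
# S16 / WP U2 — the Hecke pigeonhole  (helper283)

If `G ∈ M₂(Γ₀(p))` has `q`-expansion `s + ℓ^a (…)` with `ℓ ∤ s`, then `ℓ^a ∣ 24`.

`F₁ = Δ G ∈ S₁₄(Γ₀(p))` has integral `q`-expansion `≡ s Δ mod ℓ^a`; for primes `r ∤ p` the
`q`-series `T_r^{(14)} F₁ - s T_r^{(12)} Δ ≡ s r¹¹ (r² - 1) Δ(q^r) mod ℓ^a` lie in the image of the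
finitely generated `ℤ`-module `L₁₄ × L₁₂`; the pigeonhole principle bounds the number of `r` with
`ℓ^a ∤ s r¹¹ (r² - 1)`, and Dirichlet's theorem supplies infinitely many such `r` unless
`ℓ^a ∣ 24`.
-/

set_option autoImplicit false

noncomputable section

namespace Fermat.Agent.S16.H283

open UpperHalfPlane ModularForm CongruenceSubgroup MatrixGroups ModularFormClass
open Fermat.Agent.S20 (MF SF)
open scoped Manifold

local notation "Δ" => ModularForm.discriminant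

theorem one_mem_sp (N : ℕ) :
    (1 : ℝ) ∈ (Subgroup.map (Matrix.SpecialLinearGroup.mapGL ℝ) (Gamma0 N)).strictPeriods :=
  CongruenceSubgroup.one_mem_strictPeriods_Gamma0 N

/-! ### function level facts about `Δ` -/

theorem mdiff_disc : MDiff (Δ : ℍ → ℂ) :=
  ModularFormClass.holo CuspForm.discriminant

theorem disc_slash (γ : SL(2, ℤ)) : (Δ : ℍ → ℂ) ∣[(12 : ℤ)] γ = Δ :=
  SlashInvariantForm.slash_action_generators_SL2Z discriminant_S_invariant discriminant_T_invariant γ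

/-! ### bundling -/

section Bundle

variable (p : ℕ) [NeZero p]

/-- `Δ` as a cusp form of level `Γ₀(p)`. -/
theorem exists_discP : ∃ D : CuspForm (Gamma0 p) 12, ⇑D = (Δ : ℍ → ℂ) := by
  refine Fermat.Agent.S20.exists_cuspForm_of_data _ 12 Δ mdiff_disc
    (Fermat.Agent.S20.slash_eq_of_mem_map (Γ := Gamma0 p) fun γ _ => disc_slash γ) fun g => ?_
  rw [disc_slash]
  exact discriminant_isZeroAtImInfty

/-- `Δ · G` as a cusp form of weight `14` and level `Γ₀(p)`. -/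
theorem exists_discMul {G : ℍ → ℂ} (hG : G ∈ MF (Gamma0 p) 2) :
    ∃ F : CuspForm (Gamma0 p) 14, ⇑F = (Δ : ℍ → ℂ) * G := by
  obtain ⟨hG1, hG2, hG3⟩ := hG
  have h14 : (14 : ℤ) = 12 + 2 := by norm_num
  refine Fermat.Agent.S20.exists_cuspForm_of_data _ 14 _ (mdiff_disc.mul hG1)
    (Fermat.Agent.S20.slash_eq_of_mem_map (Γ := Gamma0 p) fun γ hγ => ?_) fun g => ?_
  · rw [h14, mul_slash_SL2, disc_slash, hG2 γ hγ]
  · rw [h14, mul_slash_SL2, disc_slash]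
    exact Filter.ZeroAtFilter.mul_boundedAtFilter discriminant_isZeroAtImInfty (hG3 g)

theorem exists_modForm {G : ℍ → ℂ} (hG : G ∈ MF (Gamma0 p) 2) :
    ∃ G' : ModularForm (Gamma0 p) 2, ⇑G' = G := by
  obtain ⟨hG1, hG2, hG3⟩ := hG
  exact Fermat.Agent.S20.exists_modularForm_of_data _ 2 G hG1
    (Fermat.Agent.S20.slash_eq_of_mem_map (Γ := Gamma0 p) hG2) hG3

end Bundle

/-! ### `q`-coefficients on cusp forms -/

section Coeff

variable {N : ℕ} {k : ℤ}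

theorem qCoeff_add' (f g : CuspForm (Gamma0 N) k) (n : ℕ) :
    qCoeff ⇑(f + g) n = qCoeff ⇑f n + qCoeff ⇑g n := by
  simp only [qCoeff, FunLike.coe_add]
  rw [ModularForm.qExpansion_add one_pos (one_mem_sp N) f g, map_add]

/-- The coefficient sequence, as an additive map on cusp forms. -/
def coeffSeq (N : ℕ) (k : ℤ) : CuspForm (Gamma0 N) k →+ (ℕ → ℂ) where
  toFun f n := qCoeff ⇑f n
  map_zero' := by
    funext n
    have h := qCoeff_add' (0 : CuspForm (Gamma0 N) k) 0 n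
    rw [add_zero] at h
    simpa using h
  map_add' f g := by
    funext n
    exact qCoeff_add' f g n

@[simp] theorem coeffSeq_apply (f : CuspForm (Gamma0 N) k) (n : ℕ) :
    coeffSeq N k f n = qCoeff ⇑f n := rfl

/-- Elements of the integral lattice have integral `q`-coefficients. -/
theorem int_of_mem_intLattice {f : CuspForm (Gamma0 N) k} (hf : f ∈ CuspForm.intLattice N k)
    (n : ℕ) : ∃ z : ℤ, qCoeff ⇑f n = (z : ℂ) := by
  have key : ∀ g ∈ CuspForm.intLattice N k, ∃ z : ℤ, coeffSeq N k g n = (z : ℂ) := by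
    intro g hg
    induction hg using Submodule.span_induction with
    | mem x hx => exact hx n
    | zero => exact ⟨0, by rw [map_zero]; simp⟩
    | add x y _ _ hx hy =>
      obtain ⟨a, ha⟩ := hx
      obtain ⟨b, hb⟩ := hy
      exact ⟨a + b, by rw [map_add, Pi.add_apply, ha, hb]; push_cast; rfl⟩
    | smul c x _ hx =>
      obtain ⟨a, ha⟩ := hx
      exact ⟨c * a, by rw [map_zsmul, Pi.smul_apply, ha, zsmul_eq_mul]; push_cast; rfl⟩
  exact key f hf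

theorem mem_intLattice_of_int {f : CuspForm (Gamma0 N) k}
    (hf : ∀ n : ℕ, ∃ z : ℤ, qCoeff ⇑f n = (z : ℂ)) : f ∈ CuspForm.intLattice N k :=
  Submodule.subset_span hf

end Coeff

/-! ### `q`-expansions of `G` and of `Δ · G` -/

section QExp

open Fermat.Agent.S22T (tau deltaSeries)

variable (p : ℕ) [NeZero p]

theorem analytic_of_mem {G : ℍ → ℂ} (hG : G ∈ MF (Gamma0 p) 2) :
    AnalyticAt ℂ (cuspFunction 1 G) 0 := by
  obtain ⟨G', rfl⟩ := exists_modForm p hG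
  exact ModularFormClass.analyticAt_cuspFunction_zero G' one_pos (one_mem_sp p)

/-- The `q`-expansion of `G` is `s + q H` for an integral power series `H`. -/
theorem exists_series {G : ℍ → ℂ} (q : ℕ) (s : ℤ)
    (h0 : qCoeff G 0 = (s : ℂ))
    (hcong : ∀ k : ℕ, 1 ≤ k → ∃ m : ℤ, qCoeff G k = (q : ℂ) * (m : ℂ)) :
    ∃ H : PowerSeries ℤ,
      qExpansion 1 G = (PowerSeries.C s + PowerSeries.C (q : ℤ) * H).map (Int.castRingHom ℂ) := by
  choose m hm using hcong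
  refine ⟨PowerSeries.mk fun k => if h : 1 ≤ k then m k h else 0, ?_⟩
  ext n
  rw [PowerSeries.coeff_map, map_add, PowerSeries.coeff_C_mul, PowerSeries.coeff_mk]
  rcases Nat.eq_zero_or_pos n with rfl | hn
  · have : (qExpansion 1 G).coeff 0 = (s : ℂ) := h0
    rw [this]
    simp
  · have hn1 : 1 ≤ n := hn
    have : (qExpansion 1 G).coeff n = (q : ℂ) * (m n hn1 : ℂ) := hm n hn1
    rw [this, dif_pos hn1, PowerSeries.coeff_C, if_neg hn.ne']
    simp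

/-- The `q`-coefficients of `Δ · G` are `≡ s τ(n) mod q`. -/
theorem qCoeff_discMul {G : ℍ → ℂ} (hG : G ∈ MF (Gamma0 p) 2) (q : ℕ) (s : ℤ)
    (h0 : qCoeff G 0 = (s : ℂ))
    (hcong : ∀ k : ℕ, 1 ≤ k → ∃ m : ℤ, qCoeff G k = (q : ℂ) * (m : ℂ)) (n : ℕ) :
    ∃ z : ℤ, qCoeff ((Δ : ℍ → ℂ) * G) n = ((s * tau n + (q : ℤ) * z : ℤ) : ℂ) := by
  obtain ⟨H, hH⟩ := exists_series q s h0 hcong
  refine ⟨(deltaSeries * H).coeff n, ?_⟩
  have hmul : qExpansion 1 ((Δ : ℍ → ℂ) * G) =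
      (deltaSeries * (PowerSeries.C s + PowerSeries.C (q : ℤ) * H)).map (Int.castRingHom ℂ) := by
    rw [qExpansion_mul Fermat.Agent.S22T.discriminant_mem (analytic_of_mem p hG),
      Fermat.Agent.S22T.qExpansion_discriminant, hH, map_mul]
  have hcoeff : (deltaSeries * (PowerSeries.C s + PowerSeries.C (q : ℤ) * H)).coeff n =
      s * tau n + (q : ℤ) * (deltaSeries * H).coeff n := by
    have : deltaSeries * (PowerSeries.C s + PowerSeries.C (q : ℤ) * H) =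
        PowerSeries.C s * deltaSeries + PowerSeries.C (q : ℤ) * (deltaSeries * H) := by
      ring
    rw [this, map_add, PowerSeries.coeff_C_mul, PowerSeries.coeff_C_mul]
    rfl
  unfold qCoeff
  rw [hmul, PowerSeries.coeff_map, hcoeff]
  rfl

end QExp

/-! ### Hecke operators -/

section Hecke

open Fermat.Agent.S22T (tau)

variable {p : ℕ}

theorem qCoeff_heckeTLin {k : ℤ} {r : ℕ} (hr : r.Prime) (hrp : ¬ r ∣ p)
    (f : CuspForm (Gamma0 p) k) (n : ℕ) :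
    qCoeff ⇑(CuspForm.heckeTLin k hr hrp f) n = coeffHeckeT k r (qCoeff ⇑f) n :=
  ModularFormClass.qCoeff_heckeT f (one_mem_sp p) hr.ne_zero n

theorem heckeTLin_mem {k : ℤ} (hk : 1 ≤ k) {r : ℕ} (hr : r.Prime) (hrp : ¬ r ∣ p)
    {f : CuspForm (Gamma0 p) k} (hf : f ∈ CuspForm.intLattice p k) :
    CuspForm.heckeTLin k hr hrp f ∈ CuspForm.intLattice p k :=
  CuspForm.mem_intLattice_of_coe_eq_heckeT hk hr.ne_zero rfl hf

end Hecke

/-! ### The pigeonhole -/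

section Main

open Fermat.Agent.S22T (tau tau_one)

/-- The set of primes `r ∤ p` with `q ∤ s r¹¹ (r² - 1)` is finite. -/
theorem finite_bad (p : ℕ) [Fact p.Prime] {G : ℍ → ℂ} (hG : G ∈ MF (Gamma0 p) 2)
    (q : ℕ) (hq : q ≠ 0) (s : ℤ) (h0 : qCoeff G 0 = (s : ℂ))
    (hcong : ∀ k : ℕ, 1 ≤ k → ∃ m : ℤ, qCoeff G k = (q : ℂ) * (m : ℂ)) :
    {r : ℕ | r.Prime ∧ ¬ r ∣ p ∧
      ¬ (q : ℤ) ∣ s * (r : ℤ) ^ 11 * ((r : ℤ) ^ 2 - 1)}.Finite := by
  haveI : NeZero p := ⟨(Fact.out : p.Prime).ne_zero⟩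
  obtain ⟨F, hF⟩ := exists_discMul p hG
  obtain ⟨D, hD⟩ := exists_discP p
  have hFc : ∀ n, ∃ z : ℤ, qCoeff ⇑F n = ((s * tau n + (q : ℤ) * z : ℤ) : ℂ) := by
    intro n
    rw [hF]
    exact qCoeff_discMul p hG q s h0 hcong n
  choose e he using hFc
  have hDc : ∀ n, qCoeff ⇑D n = (tau n : ℂ) := by
    intro n
    rw [hD]
    exact Fermat.Agent.S22T.qExpansion_discriminant_coeff n
  have hFmem : F ∈ CuspForm.intLattice p 14 := mem_intLattice_of_int fun n => ⟨_, he n⟩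
  have hDmem : D ∈ CuspForm.intLattice p 12 := mem_intLattice_of_int fun n => ⟨_, hDc n⟩
  haveI : Module.Finite ℤ ↥(CuspForm.intLattice p 14) :=
    Module.Finite.iff_fg.mpr (CuspForm.intLattice_fg p 14)
  haveI : Module.Finite ℤ ↥(CuspForm.intLattice p 12) :=
    Module.Finite.iff_fg.mpr (CuspForm.intLattice_fg p 12)
  let φ : (↥(CuspForm.intLattice p 14) × ↥(CuspForm.intLattice p 12)) →+ (ℕ → ℂ) :=
    ((coeffSeq p 14).comp (CuspForm.intLattice p 14).subtype.toAddMonoidHom).comp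
        (AddMonoidHom.fst _ _)
      - s • (((coeffSeq p 12).comp (CuspForm.intLattice p 12).subtype.toAddMonoidHom).comp
        (AddMonoidHom.snd _ _))
  have hφ_apply : ∀ (m : ↥(CuspForm.intLattice p 14) × ↥(CuspForm.intLattice p 12)) (n : ℕ),
      φ m n = qCoeff ⇑(m.1 : CuspForm (Gamma0 p) 14) n
        - (s : ℂ) * qCoeff ⇑(m.2 : CuspForm (Gamma0 p) 12) n := by
    intro m n
    simp [φ, zsmul_eq_mul]
  let x : ℕ → (↥(CuspForm.intLattice p 14) × ↥(CuspForm.intLattice p 12)) := fun r =>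
    if h : r.Prime ∧ ¬ r ∣ p then
      (⟨CuspForm.heckeTLin 14 h.1 h.2 F, heckeTLin_mem (by norm_num) h.1 h.2 hFmem⟩,
       ⟨CuspForm.heckeTLin 12 h.1 h.2 D, heckeTLin_mem (by norm_num) h.1 h.2 hDmem⟩)
    else 0
  have hx : ∀ (r : ℕ) (hr : r.Prime) (hrp : ¬ r ∣ p) (n : ℕ),
      φ (x r) n = coeffHeckeT 14 r (qCoeff ⇑F) n - (s : ℂ) * coeffHeckeT 12 r (qCoeff ⇑D) n := by
    intro r hr hrp n
    have hxr : x r = (⟨CuspForm.heckeTLin 14 hr hrp F, heckeTLin_mem (by norm_num) hr hrp hFmem⟩,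
       ⟨CuspForm.heckeTLin 12 hr hrp D, heckeTLin_mem (by norm_num) hr hrp hDmem⟩) :=
      dif_pos ⟨hr, hrp⟩
    rw [hφ_apply, hxr]
    simp only
    rw [qCoeff_heckeTLin, qCoeff_heckeTLin]
  refine finite_of_pigeonhole q hq φ ?_ _ x
    (fun r => s * (r : ℤ) ^ 11 * ((r : ℤ) ^ 2 - 1)) ?_ ?_ ?_
  · intro m n
    obtain ⟨z₁, hz₁⟩ := int_of_mem_intLattice m.1.2 n
    obtain ⟨z₂, hz₂⟩ := int_of_mem_intLattice m.2.2 n
    exact ⟨z₁ - s * z₂, by rw [hφ_apply, hz₁, hz₂]; push_cast; ring⟩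
  · rintro r ⟨hr, hrp, -⟩
    refine ⟨e (r * r) + (r : ℤ) ^ 13 * e 1, ?_⟩
    rw [hx r hr hrp, coeffHeckeT_of_dvd _ (dvd_refl r), coeffHeckeT_of_dvd _ (dvd_refl r),
      Nat.div_self hr.pos, he, he, hDc, hDc, tau_one]
    have h13 : (r : ℂ) ^ ((14 : ℤ) - 1) = (r : ℂ) ^ 13 := by
      rw [show ((14 : ℤ) - 1) = ((13 : ℕ) : ℤ) by norm_num, zpow_natCast]
    have h11 : (r : ℂ) ^ ((12 : ℤ) - 1) = (r : ℂ) ^ 11 := by
      rw [show ((12 : ℤ) - 1) = ((11 : ℕ) : ℤ) by norm_num, zpow_natCast]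
    rw [h13, h11]
    push_cast
    ring
  · rintro r ⟨hr, hrp, -⟩ r' ⟨hr', hr'p, -⟩ hne
    refine ⟨e (r * r'), ?_⟩
    have hnd : ¬ r' ∣ r := fun h => hne ((Nat.prime_dvd_prime_iff_eq hr' hr).mp h).symm
    rw [hx r' hr' hr'p, coeffHeckeT_of_not_dvd _ hnd, coeffHeckeT_of_not_dvd _ hnd, he, hDc]
    push_cast
    ring
  · rintro r ⟨-, -, h⟩
    exact h

/-- **WP U2** (Hecke pigeonhole), in the exact shape of `Fermat.Agent.S16.Skel.U2`. -/
theorem U2 (p : ℕ) [Fact p.Prime] {G : ℍ → ℂ} (hG : G ∈ MF (Gamma0 p) 2)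
    (ℓ : ℕ) (hℓ : ℓ.Prime) (a : ℕ) (s : ℤ) (hs : ¬ (ℓ : ℤ) ∣ s) (h0 : qCoeff G 0 = (s : ℂ))
    (hcong : ∀ k : ℕ, 1 ≤ k → ∃ m : ℤ, qCoeff G k = ((ℓ : ℂ) ^ a) * (m : ℂ)) :
    ℓ ^ a ∣ 24 := by
  by_contra h24
  have ha : a ≠ 0 := by
    rintro rfl
    exact h24 (by simp)
  have hq : ℓ ^ a ≠ 0 := pow_ne_zero a hℓ.ne_zero
  haveI : NeZero (ℓ ^ a) := ⟨hq⟩
  have hcong' : ∀ k : ℕ, 1 ≤ k → ∃ m : ℤ, qCoeff G k = ((ℓ ^ a : ℕ) : ℂ) * (m : ℂ) := by
    intro k hk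
    obtain ⟨m, hm⟩ := hcong k hk
    exact ⟨m, by rw [hm]; push_cast; rfl⟩
  have hfin := finite_bad p hG (ℓ ^ a) hq s h0 hcong'
  have hunit : IsUnit ((unitOf ℓ : ℕ) : ZMod (ℓ ^ a)) :=
    (ZMod.isUnit_iff_coprime _ _).mpr (unitOf_coprime hℓ a)
  have hinf := Nat.infinite_setOfPred_prime_and_eq_mod hunit
  have hinf' : ({r : ℕ | r.Prime ∧ (r : ZMod (ℓ ^ a)) = ((unitOf ℓ : ℕ) : ZMod (ℓ ^ a))} \ {p}).Infinite :=
    hinf.sdiff (Set.finite_singleton p)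
  refine hinf' (hfin.subset ?_)
  rintro r ⟨⟨hr, hru⟩, hrp⟩
  have hrp' : r ≠ p := hrp
  refine ⟨hr, fun h => hrp' ((Nat.prime_dvd_prime_iff_eq hr (Fact.out : p.Prime)).mp h), ?_⟩
  intro hdvd
  -- `r ≡ u mod ℓ^a`
  have hmod : ((ℓ ^ a : ℕ) : ℤ) ∣ (r : ℤ) - (unitOf ℓ : ℤ) := by
    have := (ZMod.intCast_eq_intCast_iff_dvd_sub (unitOf ℓ : ℤ) (r : ℤ) (ℓ ^ a)).mp (by
      push_cast
      exact hru.symm)
    exact this
  have hℓq : (ℓ : ℤ) ∣ ((ℓ ^ a : ℕ) : ℤ) := by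
    push_cast
    exact dvd_pow_self _ ha
  have hℓr : ¬ (ℓ : ℤ) ∣ (r : ℤ) := by
    intro h
    have h1 : (ℓ : ℤ) ∣ (unitOf ℓ : ℤ) := by
      have := dvd_sub h (hℓq.trans hmod)
      simpa using this
    have h2 : ℓ ∣ unitOf ℓ := by exact_mod_cast h1
    have h3 := (unitOf_coprime hℓ 1)
    rw [pow_one] at h3
    exact hℓ.one_lt.ne' (Nat.eq_one_of_dvd_coprimes h3 h2 (dvd_refl ℓ))
  have hprime : Prime (ℓ : ℤ) := Nat.prime_iff_prime_int.mp hℓ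
  have hcop : IsCoprime (((ℓ ^ a : ℕ) : ℤ)) (s * (r : ℤ) ^ 11) := by
    push_cast
    apply IsCoprime.pow_left
    rw [Prime.coprime_iff_not_dvd hprime]
    intro h
    rcases hprime.dvd_or_dvd h with h | h
    · exact hs h
    · exact hℓr (hprime.dvd_of_dvd_pow h)
  have hdvd2 : ((ℓ ^ a : ℕ) : ℤ) ∣ (r : ℤ) ^ 2 - 1 := hcop.dvd_of_dvd_mul_left hdvd
  have hdvd3 : ((ℓ ^ a : ℕ) : ℤ) ∣ (unitOf ℓ : ℤ) ^ 2 - 1 := by
    have h4 : ((ℓ ^ a : ℕ) : ℤ) ∣ (r : ℤ) ^ 2 - (unitOf ℓ : ℤ) ^ 2 := by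
      have : (r : ℤ) ^ 2 - (unitOf ℓ : ℤ) ^ 2 = ((r : ℤ) - unitOf ℓ) * ((r : ℤ) + unitOf ℓ) := by ring
      rw [this]
      exact hmod.mul_right _
    have := dvd_sub hdvd2 h4
    have h5 : (r : ℤ) ^ 2 - 1 - ((r : ℤ) ^ 2 - (unitOf ℓ : ℤ) ^ 2) = (unitOf ℓ : ℤ) ^ 2 - 1 := by ring
    rwa [h5] at this
  have h24' : ((ℓ ^ a : ℕ) : ℤ) ∣ ((24 : ℕ) : ℤ) := by
    have := hdvd3.trans (unitOf_sq_sub_one_dvd ℓ)
    simpa using this
  exact h24 (Int.natCast_dvd_natCast.mp h24')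

end Main

end Fermat.Agent.S16.H283
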